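import Mathlib

set_option autoImplicit false

/-!
# Sophie Germain's theorem (first case of FLT) and the instances p = 5, 7, 11, 13
-/

namespace Fermat.Agent.Kummer

open Finset

/-- The cofactor `(u^p + v^p)/(u+v)`. -/
def sgPhi (p : ℕ) (u v : ℤ) : ℤ := ∑ i ∈ range p, u ^ i * (-v) ^ (p - 1 - i)

theorem sgPhi_mul {p : ℕ} (hp : Odd p) (u v : ℤ) : (u + v) * sgPhi p u v = u ^ p + v ^ p := by
  have h := (Commute.all u (-v)).geom_sum₂_mul p
  rw [hp.neg_pow] at h
  unfold sgPhi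
  linear_combination h

theorem sgPhi_coprime {p : ℕ} (hp : p.Prime) (hp2 : p ≠ 2) {u v w : ℤ} (huv : IsCoprime u v)
    (h : u ^ p + v ^ p + w ^ p = 0) (hw : ¬ (p : ℤ) ∣ w) : IsCoprime (u + v) (sgPhi p u v) := by
  have hodd : Odd p := hp.odd_of_ne_two hp2
  have hpZ : Prime (p : ℤ) := Nat.prime_iff_prime_int.mp hp
  apply isCoprime_of_prime_dvd
  · rintro ⟨h0, -⟩
    apply hw
    have h1 : w ^ p = 0 := by
      have := sgPhi_mul hodd u v
      rw [h0, zero_mul] at this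
      linear_combination h + this
    rw [pow_eq_zero_iff hp.ne_zero] at h1
    rw [h1]; exact dvd_zero _
  · intro r hr hr1 hr2
    have hr1' : r ∣ u - (-v) := by simpa using hr1
    have h3 : r ∣ (p : ℤ) * (-v) ^ (p - 1) := (dvd_geom_sum₂_iff_of_dvd_sub hr1').mp hr2
    rcases hr.dvd_or_dvd h3 with h4 | h4
    · -- r ∣ p, so p ∣ u + v
      have h5 : Associated r (p : ℤ) := hr.associated_of_dvd hpZ h4
      have h6 : (p : ℤ) ∣ u + v := h5.symm.dvd.trans hr1
      have h7 : (p : ℤ) ∣ w ^ p := by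
        have h8 : (p : ℤ) ∣ u ^ p + v ^ p := by
          rw [← sgPhi_mul hodd]; exact h6.mul_right _
        have h9 : w ^ p = -(u ^ p + v ^ p) := by linear_combination h
        rw [h9]; exact (dvd_neg).mpr h8
      exact hw (hpZ.dvd_of_dvd_pow h7)
    · have h5 : r ∣ -v := hr.dvd_of_dvd_pow h4
      have h6 : r ∣ v := (dvd_neg).mp h5
      have h7 : r ∣ u := by
        have := dvd_sub hr1 h6
        simpa using this
      exact hr.not_isUnit (huv.isUnit_of_dvd' h7 h6)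

theorem sg_exists_pow {p : ℕ} (hp : p.Prime) (hp2 : p ≠ 2) {u v w : ℤ} (huv : IsCoprime u v)
    (h : u ^ p + v ^ p + w ^ p = 0) (hw : ¬ (p : ℤ) ∣ w) :
    (∃ A : ℤ, u + v = A ^ p) ∧ ∃ T : ℤ, sgPhi p u v = T ^ p := by
  have hodd : Odd p := hp.odd_of_ne_two hp2
  have hc := sgPhi_coprime hp hp2 huv h hw
  have hm : (u + v) * sgPhi p u v = (-w) ^ p := by
    rw [sgPhi_mul hodd, hodd.neg_pow]; linear_combination h
  exact ⟨Int.eq_pow_of_mul_eq_pow_odd_left hc hodd hm, Int.eq_pow_of_mul_eq_pow_odd_right hc hodd hm⟩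

/-- The core of Sophie Germain's argument, in the case `q ∣ x`. -/
theorem sg_core {p q : ℕ} (hp : p.Prime) (hp2 : p ≠ 2) (hq : q.Prime)
    (h1 : ∀ x y z : ZMod q, x ^ p + y ^ p + z ^ p = 0 → x = 0 ∨ y = 0 ∨ z = 0)
    (h2 : ∀ x : ZMod q, x ^ p ≠ (p : ZMod q)) {x y z : ℤ}
    (hxy : IsCoprime x y) (hyz : IsCoprime y z) (hzx : IsCoprime z x)
    (hx : ¬ (p : ℤ) ∣ x) (hy : ¬ (p : ℤ) ∣ y) (hz : ¬ (p : ℤ) ∣ z)
    (h : x ^ p + y ^ p + z ^ p = 0) (hqx : (q : ℤ) ∣ x) : False := by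
  have : Fact q.Prime := ⟨hq⟩
  have hodd : Odd p := hp.odd_of_ne_two hp2
  have hqZ : Prime (q : ℤ) := Nat.prime_iff_prime_int.mp hq
  obtain ⟨⟨A, hA⟩, ⟨T, hT⟩⟩ := sg_exists_pow hp hp2 hyz (w := x) (by linear_combination h) hx
  obtain ⟨⟨B, hB⟩, -⟩ := sg_exists_pow hp hp2 hzx (w := y) (by linear_combination h) hy
  obtain ⟨⟨C, hC⟩, ⟨S, hS⟩⟩ := sg_exists_pow hp hp2 hxy (w := z) (by linear_combination h) hz
  have hx0 : (x : ZMod q) = 0 := (ZMod.intCast_zmod_eq_zero_iff_dvd x q).mpr hqx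
  have hy0 : (y : ZMod q) ≠ 0 := by
    intro h0
    have : (q : ℤ) ∣ y := (ZMod.intCast_zmod_eq_zero_iff_dvd y q).mp h0
    exact hqZ.not_isUnit (hxy.isUnit_of_dvd' hqx this)
  have hz0 : (z : ZMod q) ≠ 0 := by
    intro h0
    have : (q : ℤ) ∣ z := (ZMod.intCast_zmod_eq_zero_iff_dvd z q).mp h0
    exact hqZ.not_isUnit (hzx.isUnit_of_dvd' this hqx)
  have hAq : ((y : ZMod q) + z) = (A : ZMod q) ^ p := by exact_mod_cast congrArg (Int.cast : ℤ → ZMod q) hA
  have hBq : ((z : ZMod q) + x) = (B : ZMod q) ^ p := by exact_mod_cast congrArg (Int.cast : ℤ → ZMod q) hB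
  have hCq : ((x : ZMod q) + y) = (C : ZMod q) ^ p := by exact_mod_cast congrArg (Int.cast : ℤ → ZMod q) hC
  have hsum : (B : ZMod q) ^ p + (C : ZMod q) ^ p + (-(A : ZMod q)) ^ p = 0 := by
    rw [hodd.neg_pow, ← hAq, ← hBq, ← hCq, hx0]; ring
  rcases h1 _ _ _ hsum with hB0 | hC0 | hA0
  · rw [hB0, zero_pow hp.ne_zero, hx0, add_zero] at hBq
    exact hz0 hBq
  · rw [hC0, zero_pow hp.ne_zero, hx0, zero_add] at hCq
    exact hy0 hCq
  · have hA0' : (A : ZMod q) = 0 := neg_eq_zero.mp hA0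
    rw [hA0', zero_pow hp.ne_zero] at hAq
    have hzy : -(z : ZMod q) = y := by linear_combination -hAq
    -- `T^p = p * y^(p-1)`
    have hTq : (T : ZMod q) ^ p = (p : ZMod q) * (y : ZMod q) ^ (p - 1) := by
      have := congrArg (Int.cast : ℤ → ZMod q) hT
      unfold sgPhi at this
      push_cast at this
      rw [← this, hzy, geom_sum₂_self]
    -- `S^p = y^(p-1)`
    have hSq : (S : ZMod q) ^ p = (y : ZMod q) ^ (p - 1) := by
      have h3 := congrArg (Int.cast : ℤ → ZMod q) (sgPhi_mul hodd x y)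
      rw [hS] at h3
      push_cast at h3
      rw [hx0, zero_pow hp.ne_zero, zero_add, zero_add] at h3
      have h4 : (y : ZMod q) ^ p = y * (y : ZMod q) ^ (p - 1) := by
        rw [← pow_succ', Nat.sub_add_cancel hp.one_le]
      rw [h4] at h3
      exact mul_left_cancel₀ hy0 h3
    have hS0 : (S : ZMod q) ≠ 0 := by
      intro h0
      rw [h0, zero_pow hp.ne_zero] at hSq
      exact pow_ne_zero _ hy0 hSq.symm
    apply h2 ((T : ZMod q) * (S : ZMod q)⁻¹)
    rw [mul_pow, hTq, inv_pow, hSq, mul_assoc, mul_inv_cancel₀ (pow_ne_zero _ hy0), mul_one]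

/-- **Sophie Germain's theorem**, symmetric form. -/
theorem sg_symm {p q : ℕ} (hp : p.Prime) (hp2 : p ≠ 2) (hq : q.Prime)
    (h1 : ∀ x y z : ZMod q, x ^ p + y ^ p + z ^ p = 0 → x = 0 ∨ y = 0 ∨ z = 0)
    (h2 : ∀ x : ZMod q, x ^ p ≠ (p : ZMod q)) {x y z : ℤ}
    (hxy : IsCoprime x y) (hyz : IsCoprime y z) (hzx : IsCoprime z x)
    (hx : ¬ (p : ℤ) ∣ x) (hy : ¬ (p : ℤ) ∣ y) (hz : ¬ (p : ℤ) ∣ z)
    (h : x ^ p + y ^ p + z ^ p = 0) : False := by
  have hq0 : (x : ZMod q) ^ p + (y : ZMod q) ^ p + (z : ZMod q) ^ p = 0 := by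
    exact_mod_cast congrArg (Int.cast : ℤ → ZMod q) h
  rcases h1 _ _ _ hq0 with h0 | h0 | h0
  · exact sg_core hp hp2 hq h1 h2 hxy hyz hzx hx hy hz h
      ((ZMod.intCast_zmod_eq_zero_iff_dvd x q).mp h0)
  · exact sg_core hp hp2 hq h1 h2 hyz hzx hxy hy hz hx (by linear_combination h)
      ((ZMod.intCast_zmod_eq_zero_iff_dvd y q).mp h0)
  · exact sg_core hp hp2 hq h1 h2 hzx hxy hyz hz hx hy (by linear_combination h)
      ((ZMod.intCast_zmod_eq_zero_iff_dvd z q).mp h0)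

/-- **Sophie Germain's theorem**: the first case of FLT for the odd prime `p`, given an
auxiliary prime `q`. -/
theorem sophieGermain {p q : ℕ} (hp : p.Prime) (hp2 : p ≠ 2) (hq : q.Prime)
    (h1 : ∀ x y z : ZMod q, x ^ p + y ^ p + z ^ p = 0 → x = 0 ∨ y = 0 ∨ z = 0)
    (h2 : ∀ x : ZMod q, x ^ p ≠ (p : ZMod q)) {a b c : ℤ} (hab : IsCoprime a b)
    (habc : ¬ (p : ℤ) ∣ a * b * c) : a ^ p + b ^ p ≠ c ^ p := by
  intro h
  have hodd : Odd p := hp.odd_of_ne_two hp2
  have ha : ¬ (p : ℤ) ∣ a := fun hd => habc ((hd.mul_right b).mul_right c)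
  have hb : ¬ (p : ℤ) ∣ b := fun hd => habc ((hd.mul_left a).mul_right c)
  have hc : ¬ (p : ℤ) ∣ c := fun hd => habc (hd.mul_left (a * b))
  have hbc : IsCoprime b c := by
    have h3 : IsCoprime b (c ^ p) := by
      rw [← h]
      have : IsCoprime b (a ^ p) := (hab.symm).pow_right
      have h4 : IsCoprime b (a ^ p + b * b ^ (p - 1)) := (IsCoprime.add_mul_left_right_iff).mpr this
      rwa [← pow_succ', Nat.sub_add_cancel hp.one_le] at h4
    exact (IsCoprime.pow_right_iff hp.pos).mp h3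
  have hca : IsCoprime c a := by
    have h3 : IsCoprime a (c ^ p) := by
      rw [← h, add_comm]
      have : IsCoprime a (b ^ p) := hab.pow_right
      have h4 : IsCoprime a (b ^ p + a * a ^ (p - 1)) := (IsCoprime.add_mul_left_right_iff).mpr this
      rwa [← pow_succ', Nat.sub_add_cancel hp.one_le] at h4
    exact ((IsCoprime.pow_right_iff hp.pos).mp h3).symm
  refine sg_symm hp hp2 hq h1 h2 (x := a) (y := b) (z := -c) hab hbc.neg_right hca.neg_left ha hb
    (fun hd => hc ((dvd_neg).mp hd)) ?_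
  rw [hodd.neg_pow]; linear_combination h


/-! ### Instances -/

theorem sg_pow_five (x : ZMod 11) : x = 0 ∨ x ^ 5 = 1 ∨ x ^ 5 = -1 := by
  revert x; decide

theorem sg_pow_seven (x : ZMod 29) : x = 0 ∨ x ^ 7 = 1 ∨ x ^ 7 = -1 ∨ x ^ 7 = 12 ∨ x ^ 7 = -12 := by
  revert x; decide

theorem sg_pow_eleven (x : ZMod 23) : x = 0 ∨ x ^ 11 = 1 ∨ x ^ 11 = -1 := by
  revert x; decide

theorem sg_pow_thirteen (x : ZMod 53) :
    x = 0 ∨ x ^ 13 = 1 ∨ x ^ 13 = -1 ∨ x ^ 13 = 23 ∨ x ^ 13 = -23 := by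
  revert x; decide

theorem sg_h1_five (x y z : ZMod 11) (h : x ^ 5 + y ^ 5 + z ^ 5 = 0) : x = 0 ∨ y = 0 ∨ z = 0 := by
  rcases sg_pow_five x with hx | hx | hx
  · exact Or.inl hx
  all_goals
    rcases sg_pow_five y with hy | hy | hy
    · exact Or.inr (Or.inl hy)
    all_goals
      rcases sg_pow_five z with hz | hz | hz
      · exact Or.inr (Or.inr hz)
      all_goals
        rw [hx, hy, hz] at h
        exact absurd h (by decide)

theorem sg_h1_seven (x y z : ZMod 29) (h : x ^ 7 + y ^ 7 + z ^ 7 = 0) : x = 0 ∨ y = 0 ∨ z = 0 := by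
  rcases sg_pow_seven x with hx | hx | hx | hx | hx
  · exact Or.inl hx
  all_goals
    rcases sg_pow_seven y with hy | hy | hy | hy | hy
    · exact Or.inr (Or.inl hy)
    all_goals
      rcases sg_pow_seven z with hz | hz | hz | hz | hz
      · exact Or.inr (Or.inr hz)
      all_goals
        rw [hx, hy, hz] at h
        exact absurd h (by decide)

theorem sg_h1_eleven (x y z : ZMod 23) (h : x ^ 11 + y ^ 11 + z ^ 11 = 0) :
    x = 0 ∨ y = 0 ∨ z = 0 := by
  rcases sg_pow_eleven x with hx | hx | hx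
  · exact Or.inl hx
  all_goals
    rcases sg_pow_eleven y with hy | hy | hy
    · exact Or.inr (Or.inl hy)
    all_goals
      rcases sg_pow_eleven z with hz | hz | hz
      · exact Or.inr (Or.inr hz)
      all_goals
        rw [hx, hy, hz] at h
        exact absurd h (by decide)

theorem sg_h1_thirteen (x y z : ZMod 53) (h : x ^ 13 + y ^ 13 + z ^ 13 = 0) :
    x = 0 ∨ y = 0 ∨ z = 0 := by
  rcases sg_pow_thirteen x with hx | hx | hx | hx | hx
  · exact Or.inl hx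
  all_goals
    rcases sg_pow_thirteen y with hy | hy | hy | hy | hy
    · exact Or.inr (Or.inl hy)
    all_goals
      rcases sg_pow_thirteen z with hz | hz | hz | hz | hz
      · exact Or.inr (Or.inr hz)
      all_goals
        rw [hx, hy, hz] at h
        exact absurd h (by decide)

theorem sg_h2_five (x : ZMod 11) : x ^ 5 ≠ ((5 : ℕ) : ZMod 11) := by
  revert x; decide

theorem sg_h2_seven (x : ZMod 29) : x ^ 7 ≠ ((7 : ℕ) : ZMod 29) := by
  revert x; decide

theorem sg_h2_eleven (x : ZMod 23) : x ^ 11 ≠ ((11 : ℕ) : ZMod 23) := by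
  revert x; decide

theorem sg_h2_thirteen (x : ZMod 53) : x ^ 13 ≠ ((13 : ℕ) : ZMod 53) := by
  revert x; decide

/-- First case of FLT for exponent 5. -/
theorem caseI_five {a b c : ℤ} (hab : IsCoprime a b) (habc : ¬ ((5 : ℕ) : ℤ) ∣ a * b * c) :
    a ^ 5 + b ^ 5 ≠ c ^ 5 :=
  sophieGermain (p := 5) (q := 11) (by norm_num) (by norm_num) (by norm_num)
    sg_h1_five sg_h2_five hab habc

/-- First case of FLT for exponent 7. -/
theorem caseI_seven {a b c : ℤ} (hab : IsCoprime a b) (habc : ¬ ((7 : ℕ) : ℤ) ∣ a * b * c) :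
    a ^ 7 + b ^ 7 ≠ c ^ 7 :=
  sophieGermain (p := 7) (q := 29) (by norm_num) (by norm_num) (by norm_num)
    sg_h1_seven sg_h2_seven hab habc

/-- First case of FLT for exponent 11. -/
theorem caseI_eleven {a b c : ℤ} (hab : IsCoprime a b) (habc : ¬ ((11 : ℕ) : ℤ) ∣ a * b * c) :
    a ^ 11 + b ^ 11 ≠ c ^ 11 :=
  sophieGermain (p := 11) (q := 23) (by norm_num) (by norm_num) (by norm_num)
    sg_h1_eleven sg_h2_eleven hab habc

/-- First case of FLT for exponent 13. -/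
theorem caseI_thirteen {a b c : ℤ} (hab : IsCoprime a b) (habc : ¬ ((13 : ℕ) : ℤ) ∣ a * b * c) :
    a ^ 13 + b ^ 13 ≠ c ^ 13 :=
  sophieGermain (p := 13) (q := 53) (by norm_num) (by norm_num) (by norm_num)
    sg_h1_thirteen sg_h2_thirteen hab habc

end Fermat.Agent.Kummer
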