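import Fermat.Agent.Kummer.Defs
import Fermat.Agent.Kummer.SophieGermain

set_option autoImplicit false

namespace Fermat.Agent.Kummer

theorem caseI_of_aux (p q : ℕ) (hp : p.Prime) (hp2 : p ≠ 2) (hq : q.Prime)
    (h1 : ∀ x y z : ZMod q, x ^ p + y ^ p + z ^ p = 0 → x = 0 ∨ y = 0 ∨ z = 0)
    (h2 : ∀ x : ZMod q, x ^ p ≠ (p : ZMod q)) : CaseI p :=
  fun _ _ _ hab habc => sophieGermain hp hp2 hq h1 h2 hab habc

theorem caseI_5 : CaseI 5 := fun _ _ _ hab habc => caseI_five hab habc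

theorem caseI_7 : CaseI 7 := fun _ _ _ hab habc => caseI_seven hab habc

theorem caseI_11 : CaseI 11 := fun _ _ _ hab habc => caseI_eleven hab habc

theorem caseI_13 : CaseI 13 := fun _ _ _ hab habc => caseI_thirteen hab habc

end Fermat.Agent.Kummer
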