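import Mathlib

set_option autoImplicit false

namespace Fermat.Agent.Kummer

open Module NumberField Polynomial

/-- Abstract criterion: if a commutative group `G` is generated by a family indexed by `ι`, and a
homomorphism `L` to an `𝔽_p`-vector space takes `card ι` linearly independent values, then
every element of the kernel of `L` is a `p`-th power. -/
theorem exists_eq_pow_of_hom_eq_zero {G : Type*} [CommGroup G] {p : ℕ} [Fact p.Prime]
    {ι ι' : Type*} [Fintype ι] [Fintype ι'] (hcard : Fintype.card ι ≤ Fintype.card ι')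
    (g : ι → G) (hg : ∀ x : G, ∃ n : ι → ℤ, x = ∏ i, g i ^ n i)
    {W : Type*} [AddCommGroup W] [Module (ZMod p) W]
    (L : Additive G →+ W)
    (u : ι' → G) (hu : LinearIndependent (ZMod p) (fun i => L (Additive.ofMul (u i))))
    (x : G) (hx : L (Additive.ofMul x) = 0) : ∃ y : G, x = y ^ p := by
  classical
  -- the linear map
  let M : (ι → ZMod p) →ₗ[ZMod p] W :=
    Fintype.linearCombination (ZMod p) (fun i => L (Additive.ofMul (g i)))
  have hM : ∀ n : ι → ℤ, M (fun i => (n i : ZMod p)) = L (Additive.ofMul (∏ i, g i ^ n i)) := by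
    intro n
    simp only [M, Fintype.linearCombination_apply, ofMul_prod, map_sum, ofMul_zpow, map_zsmul]
    refine Finset.sum_congr rfl fun i _ => ?_
    exact Int.cast_smul_eq_zsmul (ZMod p) (n i) _
  have hrange : ∀ y : G, L (Additive.ofMul y) ∈ LinearMap.range M := by
    intro y
    obtain ⟨n, rfl⟩ := hg y
    exact ⟨_, hM n⟩
  -- finrank of range is at least card ι'
  have h1 : Fintype.card ι' ≤ finrank (ZMod p) (LinearMap.range M) := by
    let v : ι' → LinearMap.range M := fun i => ⟨L (Additive.ofMul (u i)), hrange _⟩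
    have hv : LinearIndependent (ZMod p) v := by
      apply LinearIndependent.of_comp (LinearMap.range M).subtype
      exact hu
    exact hv.fintype_card_le_finrank
  have h2 := LinearMap.finrank_range_add_finrank_ker M
  rw [Module.finrank_fintype_fun_eq_card] at h2
  have h3 : finrank (ZMod p) (LinearMap.ker M) = 0 := by omega
  have h4 : LinearMap.ker M = ⊥ := Submodule.finrank_eq_zero.mp h3
  obtain ⟨n, rfl⟩ := hg x
  have h5 : (fun i => (n i : ZMod p)) = 0 := by
    have : (fun i => (n i : ZMod p)) ∈ LinearMap.ker M := by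
      rw [LinearMap.mem_ker, hM, hx]
    rw [h4] at this
    simpa using this
  have h6 : ∀ i, ∃ m : ℤ, n i = p * m := by
    intro i
    have := congrFun h5 i
    simp only [Pi.zero_apply] at this
    exact (ZMod.intCast_zmod_eq_zero_iff_dvd _ _).mp this
  choose m hm using h6
  refine ⟨∏ i, g i ^ m i, ?_⟩
  rw [← Finset.prod_pow]
  refine Finset.prod_congr rfl fun i _ => ?_
  rw [hm i, mul_comm, zpow_mul, zpow_natCast]

section generators

variable (K : Type*) [Field K] [NumberField K]

/-- Dirichlet: the unit group is generated by `rank + 1` elements. -/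
theorem exists_units_generators :
    ∃ g : Option (Fin (Units.rank K)) → (𝓞 K)ˣ,
      ∀ x : (𝓞 K)ˣ, ∃ n : Option (Fin (Units.rank K)) → ℤ, x = ∏ i, g i ^ n i := by
  obtain ⟨τ, hτ⟩ := IsCyclic.exists_generator (α := Units.torsion K)
  refine ⟨fun i => i.elim (τ : (𝓞 K)ˣ) (Units.fundSystem K), fun x => ?_⟩
  obtain ⟨⟨ζ, e⟩, hx, -⟩ := Units.exist_unique_eq_mul_prod K x
  obtain ⟨k, hk⟩ := Subgroup.mem_zpowers_iff.mp (hτ ζ)
  refine ⟨fun i => i.elim k e, ?_⟩
  rw [Fintype.prod_option]
  simp only [Option.elim_none, Option.elim_some]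
  rw [hx]
  congr 1
  simp only
  rw [← hk]
  simp

end generators

section ringHom

variable {p : ℕ} [hp : Fact p.Prime] {K : Type*} [Field K] [NumberField K]
  {ζ : K} (hζ : IsPrimitiveRoot ζ p)
  {S : Type*} [CommRing S] [Algebra (ZMod p) S]

theorem aeval_cyclotomic_one_add (s : S) : aeval (1 + s) (cyclotomic p ℤ) = s ^ (p - 1) := by
  have h1 : cyclotomic p (ZMod p) = (X - 1) ^ (p - 1) := by
    have := cyclotomic_mul_prime_pow_eq (ZMod p) (p := p) (m := 1)
      (fun h => hp.out.one_lt.ne' (Nat.dvd_one.mp h)) (k := 1) one_pos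
    simpa using this
  have h2 : aeval (1 + s) (cyclotomic p ℤ) = aeval (1 + s) (cyclotomic p (ZMod p)) := by
    rw [← map_cyclotomic_int p (ZMod p),
      show Int.castRingHom (ZMod p) = algebraMap ℤ (ZMod p) from rfl, aeval_map_algebraMap]
  rw [h2, h1]
  simp

theorem minpoly_toInteger : minpoly ℤ hζ.toInteger = cyclotomic p ℤ := by
  rw [cyclotomic_eq_minpoly hζ hp.out.pos]
  exact (minpoly.algebraMap_eq (A := ℤ) (B := 𝓞 K) (B' := K)
    (RingOfIntegers.coe_injective) hζ.toInteger).symm

variable [IsCyclotomicExtension {p} ℚ K]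

theorem aeval_minpoly_gen (s : S) (hs : s ^ (p - 1) = 0) :
    aeval (1 + s) (minpoly ℤ hζ.integralPowerBasis.gen) = 0 := by
  rw [hζ.integralPowerBasis_gen, minpoly_toInteger, aeval_cyclotomic_one_add, hs]

/-- The ring hom `𝓞 K → S` sending `ζ` to `1 + s`, for `S` of characteristic `p` and `s^(p-1)=0`. -/
noncomputable def toCharP (s : S) (hs : s ^ (p - 1) = 0) : 𝓞 K →+* S :=
  (hζ.integralPowerBasis.lift (1 + s) (aeval_minpoly_gen hζ s hs)).toRingHom

theorem toCharP_zeta (s : S) (hs : s ^ (p - 1) = 0) :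
    toCharP hζ s hs hζ.toInteger = 1 + s := by
  have := hζ.integralPowerBasis.lift_gen (1 + s) (aeval_minpoly_gen hζ s hs)
  conv_lhs => rw [← hζ.integralPowerBasis_gen]
  exact this

end ringHom

section dlog

variable {R : Type*} [CommRing R]

open TrivSqZeroExt

theorem fst_mul_fst_inv (s : (DualNumber R)ˣ) :
    fst (s : DualNumber R) * fst ((s⁻¹ : (DualNumber R)ˣ) : DualNumber R) = 1 := by
  rw [← fst_mul, Units.mul_inv, fst_one]

/-- Logarithmic derivative on the units of the dual numbers. -/
def dlog : Additive (DualNumber R)ˣ →+ R where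
  toFun s := snd (s.toMul : DualNumber R) * fst ((s.toMul⁻¹ : (DualNumber R)ˣ) : DualNumber R)
  map_zero' := by simp
  map_add' a b := by
    have ha := fst_mul_fst_inv a.toMul
    have hb := fst_mul_fst_inv b.toMul
    have hab : ((a.toMul * b.toMul)⁻¹ : (DualNumber R)ˣ) = a.toMul⁻¹ * b.toMul⁻¹ := mul_inv a.toMul b.toMul
    simp only [toMul_add, hab, Units.val_mul, snd_mul, fst_mul, smul_eq_mul,
      MulOpposite.smul_eq_mul_unop, MulOpposite.unop_op]
    linear_combination (snd (b.toMul : DualNumber R) * fst ((b.toMul⁻¹ : (DualNumber R)ˣ) : DualNumber R)) * ha + (snd (a.toMul : DualNumber R) * fst ((a.toMul⁻¹ : (DualNumber R)ˣ) : DualNumber R)) * hb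

theorem dlog_eq_of_mul_eq (s : (DualNumber R)ˣ) (z : R)
    (h : z * fst (s : DualNumber R) = snd (s : DualNumber R)) :
    dlog (Additive.ofMul s) = z := by
  have ha := fst_mul_fst_inv s
  simp only [dlog, AddMonoidHom.coe_mk, ZeroHom.coe_mk, toMul_ofMul]
  rw [← h]
  linear_combination z * ha

end dlog

end Fermat.Agent.Kummer
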