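import Mathlib

set_option autoImplicit false

namespace Fermat.Agent.Kummer

open NumberField

/-- With the current instance transparency settings, `IsCyclotomicExtension {p} ℚ (CyclotomicField p ℚ)`
is not found by instance search when the `ℚ`-algebra structure is `DivisionRing.toRatAlgebra`
(which is what a generic `[Field K] [NumberField K]` statement uses). We register it here. -/
instance instIsCyclotomicExtensionRat (p : ℕ) [NeZero p] :
    IsCyclotomicExtension {p} ℚ (CyclotomicField p ℚ) :=
  CyclotomicField.isCyclotomicExtension p ℚ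

/-- Kummer's lemma for the prime `p`, for the concrete field `CyclotomicField p ℚ`:
a unit congruent to a rational integer mod `p` is a `p`-th power. -/
def KummerLemma (p : ℕ) [NeZero p] : Prop :=
  ∀ u : (𝓞 (CyclotomicField p ℚ))ˣ,
    (∃ n : ℤ, (p : 𝓞 (CyclotomicField p ℚ)) ∣ (u : 𝓞 (CyclotomicField p ℚ)) - (n : 𝓞 (CyclotomicField p ℚ))) →
      ∃ v : (𝓞 (CyclotomicField p ℚ))ˣ, u = v ^ p

/-- The ring of integers of the `p`-th cyclotomic field is a PID. -/
def CyclotomicPID (p : ℕ) [NeZero p] : Prop :=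
  IsPrincipalIdealRing (𝓞 (CyclotomicField p ℚ))

/-- First case of FLT for exponent `p`. -/
def CaseI (p : ℕ) : Prop :=
  ∀ a b c : ℤ, IsCoprime a b → ¬ (p : ℤ) ∣ a * b * c → a ^ p + b ^ p ≠ c ^ p

/-- Second case of FLT for exponent `p`. -/
def CaseII (p : ℕ) : Prop :=
  ∀ a b c : ℤ, a * b * c ≠ 0 → IsCoprime a b → (p : ℤ) ∣ a * b * c → a ^ p + b ^ p ≠ c ^ p

end Fermat.Agent.Kummer
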