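import Fermat.Agent.Kummer.Defs
import Fermat.Agent.Kummer.Criterion

set_option autoImplicit false

namespace Fermat.Agent.Kummer

open Module NumberField Polynomial TrivSqZeroExt

section main

theorem dual_pow_eq_zero {p : ℕ} {R : Type*} [CommRing R] (hp2 : 2 ≤ p - 1) (t : R)
    (ht : t ^ (p - 2) = 0) :
    ((inl t + inr (1 + t) : DualNumber R)) ^ (p - 1) = 0 := by
  ext
  · simp only [fst_pow, fst_add, fst_inl, fst_inr, add_zero, fst_zero]
    rw [show p - 1 = (p - 2) + 1 by omega, pow_succ, ht, zero_mul]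
  · simp only [snd_pow, fst_add, fst_inl, fst_inr, add_zero, snd_add, snd_inl, snd_inr, zero_add,
      snd_zero]
    rw [show (p - 1).pred = p - 2 by simp; omega, ht]
    simp

theorem fst_one_add_pow {R : Type*} [CommRing R] (t : R) (i : ℕ) :
    fst ((1 + (inl t + inr (1 + t) : DualNumber R)) ^ i) = (1 + t) ^ i := by
  simp

theorem snd_one_add_pow {R : Type*} [CommRing R] (t : R) (i : ℕ) :
    snd ((1 + (inl t + inr (1 + t) : DualNumber R)) ^ (i + 1)) = ((i + 1 : ℕ) : R) * (1 + t) ^ (i + 1) := by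
  simp only [snd_pow, fst_add, fst_one, fst_inl, fst_inr, add_zero, snd_add, snd_one, snd_inl,
    snd_inr, zero_add, Nat.pred_succ, smul_eq_mul, nsmul_eq_mul]
  ring

variable {p : ℕ} [hp : Fact p.Prime] 

theorem rank_cyclotomic {r : ℕ} (hr : 2 * r + 1 = p) (hr1 : 1 ≤ r) (K : Type*) [Field K] [NumberField K]
    [IsCyclotomicExtension {p} ℚ K] : Units.rank K + 1 = r := by
  rw [Units.rank, InfinitePlace.card_eq_nrRealPlaces_add_nrComplexPlaces,
    IsCyclotomicExtension.Rat.nrRealPlaces_eq_zero (n := p) K (by omega),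
    IsCyclotomicExtension.Rat.nrComplexPlaces_eq_totient_div_two p, Nat.totient_prime hp.out]
  omega

theorem kummerLemma_of_data_aux {r : ℕ} (hr : 2 * r + 1 = p) (hr1 : 2 ≤ r)
    {R : Type*} [CommRing R] [Algebra (ZMod p) R] (t : R) (ht : t ^ (p - 2) = 0)
    {W : Type*} [AddCommGroup W] [Module (ZMod p) W] (ℓ : R →+ W)
    (Z : Fin r → R)
    (hZ : ∀ a : Fin r, Z a * (∑ i ∈ Finset.range (a + 1), (1 + t) ^ (i + 1)) =
        ∑ i ∈ Finset.range (a + 1), ((i + 1 : ℕ) : R) * (1 + t) ^ (i + 1))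
    (hind : LinearIndependent (ZMod p) (fun a => ℓ (Z a)))
    (K : Type*) [Field K] [NumberField K] [IsCyclotomicExtension {p} ℚ K]
    (u : (𝓞 K)ˣ) (n : ℤ) (hn : (p : 𝓞 K) ∣ (u : 𝓞 K) - (n : 𝓞 K)) :
    ∃ v : (𝓞 K)ˣ, u = v ^ p := by
  have hζ : IsPrimitiveRoot (IsCyclotomicExtension.zeta p ℚ K) p :=
    IsCyclotomicExtension.zeta_spec p ℚ K
  have hs := dual_pow_eq_zero (p := p) (by omega) t ht
  let π : 𝓞 K →+* DualNumber R := toCharP hζ _ hs
  have hπζ : π hζ.toInteger = 1 + (inl t + inr (1 + t)) := toCharP_zeta hζ _ hs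
  let L : Additive (𝓞 K)ˣ →+ W := ℓ.comp (dlog.comp (Units.map π.toMonoidHom).toAdditive)
  obtain ⟨g, hg⟩ := exists_units_generators K
  have hζ' := hζ.toInteger_isPrimitiveRoot
  -- the cyclotomic units
  have hunit : ∀ a : Fin r, IsUnit (∑ i ∈ Finset.range (a + 1), hζ.toInteger ^ (i + 1)) := by
    intro a
    have h1 : IsUnit (∑ i ∈ Finset.range (a + 1), hζ.toInteger ^ i) := by
      apply hζ'.geom_sum_isUnit (by omega)
      apply Nat.Coprime.symm
      rw [Nat.Prime.coprime_iff_not_dvd hp.out]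
      intro h
      have := Nat.le_of_dvd (by omega) h
      omega
    have h2 : IsUnit hζ.toInteger := hζ'.isUnit (by omega)
    have : ∑ i ∈ Finset.range (a + 1), hζ.toInteger ^ (i + 1) =
        (∑ i ∈ Finset.range (a + 1), hζ.toInteger ^ i) * hζ.toInteger := by
      rw [Finset.sum_mul]
      simp [pow_succ]
    rw [this]
    exact h1.mul h2
  let v : Fin r → (𝓞 K)ˣ := fun a => (hunit a).unit
  have hLv : ∀ a, L (Additive.ofMul (v a)) = ℓ (Z a) := by
    intro a
    simp only [L, AddMonoidHom.comp_apply]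
    congr 1
    apply dlog_eq_of_mul_eq
    have : ((Units.map π.toMonoidHom (v a) : (DualNumber R)ˣ) : DualNumber R) =
        ∑ i ∈ Finset.range (a + 1), (1 + (inl t + inr (1 + t) : DualNumber R)) ^ (i + 1) := by
      simp only [Units.coe_map, v, IsUnit.unit_spec, RingHom.toMonoidHom_eq_coe, MonoidHom.coe_coe,
        map_sum, map_pow, hπζ]
    change Z a * fst ((Units.map π.toMonoidHom (v a) : (DualNumber R)ˣ) : DualNumber R) =
      snd ((Units.map π.toMonoidHom (v a) : (DualNumber R)ˣ) : DualNumber R)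
    rw [this, fst_sum, snd_sum]
    simp only [fst_one_add_pow, snd_one_add_pow]
    exact hZ a
  have hLu : L (Additive.ofMul u) = 0 := by
    simp only [L, AddMonoidHom.comp_apply]
    rw [← map_zero ℓ]
    congr 1
    apply dlog_eq_of_mul_eq
    rw [zero_mul]
    obtain ⟨w, hw⟩ := hn
    have h1 : (u : 𝓞 K) = n + p * w := by rw [← hw]; ring
    have hp0 : ((p : ℕ) : DualNumber R) = 0 := by
      rw [← map_natCast (algebraMap (ZMod p) (DualNumber R)) p, ZMod.natCast_self, map_zero]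
    change 0 = snd (π (u : 𝓞 K))
    rw [h1, map_add, map_mul, map_natCast, hp0, zero_mul, add_zero, map_intCast]
    simp
  refine exists_eq_pow_of_hom_eq_zero (p := p) (ι := Option (Fin (Units.rank K))) (ι' := Fin r)
    ?_ g hg L v ?_ u hLu
  · rw [Fintype.card_option, Fintype.card_fin, Fintype.card_fin, rank_cyclotomic hr (by omega) K]
  · simp only [hLv]
    exact hind

theorem kummerLemma_of_data {r : ℕ} (hr : 2 * r + 1 = p) (hr1 : 2 ≤ r)
    {R : Type*} [CommRing R] [Algebra (ZMod p) R] (t : R) (ht : t ^ (p - 2) = 0)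
    {W : Type*} [AddCommGroup W] [Module (ZMod p) W] (ℓ : R →+ W)
    (Z : Fin r → R)
    (hZ : ∀ a : Fin r, Z a * (∑ i ∈ Finset.range (a + 1), (1 + t) ^ (i + 1)) =
        ∑ i ∈ Finset.range (a + 1), ((i + 1 : ℕ) : R) * (1 + t) ^ (i + 1))
    (hind : LinearIndependent (ZMod p) (fun a => ℓ (Z a))) :
    KummerLemma p := by
  rintro u ⟨n, hn⟩
  exact kummerLemma_of_data_aux hr hr1 t ht ℓ Z hZ hind _ u n hn

end main

end Fermat.Agent.Kummer
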