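import Mathlib

set_option autoImplicit false

namespace Fermat.Agent.Kummer

open Polynomial

section trunc

variable (F : Type*) [Field F] (d : ℕ)

/-- The truncated polynomial ring `F[t]/(t^d)`. -/
abbrev TruncPoly : Type _ := AdjoinRoot (X ^ d : F[X])

/-- The coefficient functional on the truncated polynomial ring. -/
noncomputable def truncCoeff (k : ℕ) : TruncPoly F d →ₗ[F] F :=
  (lcoeff F k).comp (AdjoinRoot.modByMonicHom (monic_X_pow d))

variable {F d}

theorem truncCoeff_mk {k : ℕ} (hk : k < d) (f : F[X]) :
    truncCoeff F d k (AdjoinRoot.mk (X ^ d) f) = f.coeff k := by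
  simp only [truncCoeff, LinearMap.comp_apply, AdjoinRoot.modByMonicHom_mk, lcoeff_apply]
  conv_rhs => rw [← modByMonic_add_div f (X ^ d)]
  rw [coeff_add, coeff_X_pow_mul', if_neg (by omega), add_zero]

theorem root_pow_eq_zero : (AdjoinRoot.root (X ^ d : F[X])) ^ d = 0 := by
  have := AdjoinRoot.eval₂_root (X ^ d : F[X])
  simpa using this

end trunc

end Fermat.Agent.Kummer
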