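import Fermat.Agent.Kummer.DlogCriterion
import Fermat.Agent.Kummer.TruncPoly

/-! Kummer's lemma for `p = 13`: data generated by `scripts/kummer_data.py`. -/

set_option autoImplicit false
set_option linter.unusedSimpArgs false

namespace Fermat.Agent.Kummer

open Polynomial

namespace Data13

instance fact_prime : Fact (Nat.Prime 13) := ⟨by norm_num⟩

/-- The variable of the truncated polynomial ring. -/
noncomputable abbrev t : TruncPoly (ZMod 13) 11 := AdjoinRoot.root _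

theorem ht : t ^ 11 = 0 := root_pow_eq_zero

theorem hchar : (13 : TruncPoly (ZMod 13) 11) = 0 := by
  rw [← map_ofNat (algebraMap (ZMod 13) (TruncPoly (ZMod 13) 11)) 13]
  rw [show (OfNat.ofNat 13 : ZMod 13) = 0 from rfl, map_zero]

/-- logarithmic derivative of the `0`-th cyclotomic unit -/
noncomputable def z0 : (ZMod 13)[X] := 1

theorem mk_z0 : AdjoinRoot.mk (X ^ 11 : (ZMod 13)[X]) z0 = 1 := by
  simp only [z0, map_add, map_mul, map_pow, map_ofNat, map_one, AdjoinRoot.mk_X]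

theorem hz0 : (1) * ((1 + t) ^ 1) = 1 * (1 + t) ^ 1 := by
  linear_combination (0) * ht + (0) * hchar

theorem hZ0 : AdjoinRoot.mk (X ^ 11 : (ZMod 13)[X]) z0 * (∑ i ∈ Finset.range (0 + 1), (1 + t) ^ (i + 1)) =
    ∑ i ∈ Finset.range (0 + 1), ((i + 1 : ℕ) : TruncPoly (ZMod 13) 11) * (1 + t) ^ (i + 1) := by
  rw [mk_z0]
  simp only [Finset.sum_range_succ, Finset.sum_range_zero]
  push_cast
  linear_combination hz0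

/-- logarithmic derivative of the `1`-th cyclotomic unit -/
noncomputable def z1 : (ZMod 13)[X] := 8 + 10 * X + 8 * X ^ 2 + 9 * X ^ 3 + 2 * X ^ 4 + 12 * X ^ 5 + 7 * X ^ 6 + 3 * X ^ 7 + 5 * X ^ 8 + 4 * X ^ 9 + 11 * X ^ 10

theorem mk_z1 : AdjoinRoot.mk (X ^ 11 : (ZMod 13)[X]) z1 = 8 + 10 * t + 8 * t ^ 2 + 9 * t ^ 3 + 2 * t ^ 4 + 12 * t ^ 5 + 7 * t ^ 6 + 3 * t ^ 7 + 5 * t ^ 8 + 4 * t ^ 9 + 11 * t ^ 10 := by
  simp only [z1, map_add, map_mul, map_pow, map_ofNat, map_one, AdjoinRoot.mk_X]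

theorem hz1 : (8 + 10 * t + 8 * t ^ 2 + 9 * t ^ 3 + 2 * t ^ 4 + 12 * t ^ 5 + 7 * t ^ 6 + 3 * t ^ 7 + 5 * t ^ 8 + 4 * t ^ 9 + 11 * t ^ 10) * ((1 + t) ^ 1 + (1 + t) ^ 2) = 1 * (1 + t) ^ 1 + 2 * (1 + t) ^ 2 := by
  linear_combination (37 + 11 * t) * ht + (1 + 3 * t + 4 * t ^ 2 + 4 * t ^ 3 + 3 * t ^ 4 + 3 * t ^ 5 + 4 * t ^ 6 + 3 * t ^ 7 + 2 * t ^ 8 + 2 * t ^ 9 + 3 * t ^ 10) * hchar

theorem hZ1 : AdjoinRoot.mk (X ^ 11 : (ZMod 13)[X]) z1 * (∑ i ∈ Finset.range (1 + 1), (1 + t) ^ (i + 1)) =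
    ∑ i ∈ Finset.range (1 + 1), ((i + 1 : ℕ) : TruncPoly (ZMod 13) 11) * (1 + t) ^ (i + 1) := by
  rw [mk_z1]
  simp only [Finset.sum_range_succ, Finset.sum_range_zero]
  push_cast
  linear_combination hz1

/-- logarithmic derivative of the `2`-th cyclotomic unit -/
noncomputable def z2 : (ZMod 13)[X] := 2 + 5 * X + 4 * X ^ 2 + 3 * X ^ 3 + 12 * X ^ 5 + 1 * X ^ 6 + 8 * X ^ 7 + 9 * X ^ 8 + 10 * X ^ 9

theorem mk_z2 : AdjoinRoot.mk (X ^ 11 : (ZMod 13)[X]) z2 = 2 + 5 * t + 4 * t ^ 2 + 3 * t ^ 3 + 12 * t ^ 5 + 1 * t ^ 6 + 8 * t ^ 7 + 9 * t ^ 8 + 10 * t ^ 9 := by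
  simp only [z2, map_add, map_mul, map_pow, map_ofNat, map_one, AdjoinRoot.mk_X]

theorem hz2 : (2 + 5 * t + 4 * t ^ 2 + 3 * t ^ 3 + 12 * t ^ 5 + 1 * t ^ 6 + 8 * t ^ 7 + 9 * t ^ 8 + 10 * t ^ 9) * ((1 + t) ^ 1 + (1 + t) ^ 2 + (1 + t) ^ 3) = 1 * (1 + t) ^ 1 + 2 * (1 + t) ^ 2 + 3 * (1 + t) ^ 3 := by
  linear_combination (49 + 10 * t) * ht + (1 * t + 3 * t ^ 2 + 4 * t ^ 3 + 3 * t ^ 4 + 4 * t ^ 5 + 6 * t ^ 6 + 6 * t ^ 7 + 7 * t ^ 8 + 9 * t ^ 9 + 8 * t ^ 10) * hchar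

theorem hZ2 : AdjoinRoot.mk (X ^ 11 : (ZMod 13)[X]) z2 * (∑ i ∈ Finset.range (2 + 1), (1 + t) ^ (i + 1)) =
    ∑ i ∈ Finset.range (2 + 1), ((i + 1 : ℕ) : TruncPoly (ZMod 13) 11) * (1 + t) ^ (i + 1) := by
  rw [mk_z2]
  simp only [Finset.sum_range_succ, Finset.sum_range_zero]
  push_cast
  linear_combination hz2

/-- logarithmic derivative of the `3`-th cyclotomic unit -/
noncomputable def z3 : (ZMod 13)[X] := 9 + 11 * X + 1 * X ^ 2 + 9 * X ^ 3 + 12 * X ^ 4 + 2 * X ^ 5 + 12 * X ^ 6 + 3 * X ^ 7 + 9 * X ^ 8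

theorem mk_z3 : AdjoinRoot.mk (X ^ 11 : (ZMod 13)[X]) z3 = 9 + 11 * t + 1 * t ^ 2 + 9 * t ^ 3 + 12 * t ^ 4 + 2 * t ^ 5 + 12 * t ^ 6 + 3 * t ^ 7 + 9 * t ^ 8 := by
  simp only [z3, map_add, map_mul, map_pow, map_ofNat, map_one, AdjoinRoot.mk_X]

theorem hz3 : (9 + 11 * t + 1 * t ^ 2 + 9 * t ^ 3 + 12 * t ^ 4 + 2 * t ^ 5 + 12 * t ^ 6 + 3 * t ^ 7 + 9 * t ^ 8) * ((1 + t) ^ 1 + (1 + t) ^ 2 + (1 + t) ^ 3 + (1 + t) ^ 4) = 1 * (1 + t) ^ 1 + 2 * (1 + t) ^ 2 + 3 * (1 + t) ^ 3 + 4 * (1 + t) ^ 4 := by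
  linear_combination (48 + 9 * t) * ht + (2 + 8 * t + 13 * t ^ 2 + 14 * t ^ 3 + 16 * t ^ 4 + 18 * t ^ 5 + 18 * t ^ 6 + 17 * t ^ 7 + 16 * t ^ 8 + 14 * t ^ 9 + 9 * t ^ 10) * hchar

theorem hZ3 : AdjoinRoot.mk (X ^ 11 : (ZMod 13)[X]) z3 * (∑ i ∈ Finset.range (3 + 1), (1 + t) ^ (i + 1)) =
    ∑ i ∈ Finset.range (3 + 1), ((i + 1 : ℕ) : TruncPoly (ZMod 13) 11) * (1 + t) ^ (i + 1) := by
  rw [mk_z3]
  simp only [Finset.sum_range_succ, Finset.sum_range_zero]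
  push_cast
  linear_combination hz3

/-- logarithmic derivative of the `4`-th cyclotomic unit -/
noncomputable def z4 : (ZMod 13)[X] := 3 + 2 * X + 12 * X ^ 2 + 5 * X ^ 3 + 6 * X ^ 4 + 2 * X ^ 5 + 2 * X ^ 7 + 11 * X ^ 8 + 10 * X ^ 9 + 8 * X ^ 10

theorem mk_z4 : AdjoinRoot.mk (X ^ 11 : (ZMod 13)[X]) z4 = 3 + 2 * t + 12 * t ^ 2 + 5 * t ^ 3 + 6 * t ^ 4 + 2 * t ^ 5 + 2 * t ^ 7 + 11 * t ^ 8 + 10 * t ^ 9 + 8 * t ^ 10 := by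
  simp only [z4, map_add, map_mul, map_pow, map_ofNat, map_one, AdjoinRoot.mk_X]

theorem hz4 : (3 + 2 * t + 12 * t ^ 2 + 5 * t ^ 3 + 6 * t ^ 4 + 2 * t ^ 5 + 2 * t ^ 7 + 11 * t ^ 8 + 10 * t ^ 9 + 8 * t ^ 10) * ((1 + t) ^ 1 + (1 + t) ^ 2 + (1 + t) ^ 3 + (1 + t) ^ 4 + (1 + t) ^ 5) = 1 * (1 + t) ^ 1 + 2 * (1 + t) ^ 2 + 3 * (1 + t) ^ 3 + 4 * (1 + t) ^ 4 + 5 * (1 + t) ^ 5 := by
  linear_combination (497 + 378 * t + 191 * t ^ 2 + 58 * t ^ 3 + 8 * t ^ 4) * ht + (5 * t ^ 2 + 17 * t ^ 3 + 28 * t ^ 4 + 30 * t ^ 5 + 23 * t ^ 6 + 14 * t ^ 7 + 12 * t ^ 8 + 21 * t ^ 9 + 34 * t ^ 10) * hchar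

theorem hZ4 : AdjoinRoot.mk (X ^ 11 : (ZMod 13)[X]) z4 * (∑ i ∈ Finset.range (4 + 1), (1 + t) ^ (i + 1)) =
    ∑ i ∈ Finset.range (4 + 1), ((i + 1 : ℕ) : TruncPoly (ZMod 13) 11) * (1 + t) ^ (i + 1) := by
  rw [mk_z4]
  simp only [Finset.sum_range_succ, Finset.sum_range_zero]
  push_cast
  linear_combination hz4

/-- logarithmic derivative of the `5`-th cyclotomic unit -/
noncomputable def z5 : (ZMod 13)[X] := 10 + 4 * X + 11 * X ^ 2 + 11 * X ^ 3 + 4 * X ^ 4 + 10 * X ^ 5 + 7 * X ^ 6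

theorem mk_z5 : AdjoinRoot.mk (X ^ 11 : (ZMod 13)[X]) z5 = 10 + 4 * t + 11 * t ^ 2 + 11 * t ^ 3 + 4 * t ^ 4 + 10 * t ^ 5 + 7 * t ^ 6 := by
  simp only [z5, map_add, map_mul, map_pow, map_ofNat, map_one, AdjoinRoot.mk_X]

theorem hz5 : (10 + 4 * t + 11 * t ^ 2 + 11 * t ^ 3 + 4 * t ^ 4 + 10 * t ^ 5 + 7 * t ^ 6) * ((1 + t) ^ 1 + (1 + t) ^ 2 + (1 + t) ^ 3 + (1 + t) ^ 4 + (1 + t) ^ 5 + (1 + t) ^ 6) = 1 * (1 + t) ^ 1 + 2 * (1 + t) ^ 2 + 3 * (1 + t) ^ 3 + 4 * (1 + t) ^ 4 + 5 * (1 + t) ^ 5 + 6 * (1 + t) ^ 6 := by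
  linear_combination (59 + 7 * t) * ht + (3 + 11 * t + 25 * t ^ 2 + 46 * t ^ 3 + 67 * t ^ 4 + 79 * t ^ 5 + 80 * t ^ 6 + 73 * t ^ 7 + 59 * t ^ 8 + 38 * t ^ 9 + 17 * t ^ 10) * hchar

theorem hZ5 : AdjoinRoot.mk (X ^ 11 : (ZMod 13)[X]) z5 * (∑ i ∈ Finset.range (5 + 1), (1 + t) ^ (i + 1)) =
    ∑ i ∈ Finset.range (5 + 1), ((i + 1 : ℕ) : TruncPoly (ZMod 13) 11) * (1 + t) ^ (i + 1) := by
  rw [mk_z5]
  simp only [Finset.sum_range_succ, Finset.sum_range_zero]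
  push_cast
  linear_combination hz5

/-- the family of logarithmic derivatives -/
noncomputable def z : Fin 6 → (ZMod 13)[X] := ![z0, z1, z2, z3, z4, z5]

/-- the coefficients we look at -/
def J : Fin 6 → ℕ := ![0, 1, 3, 5, 7, 9]

theorem J_lt (j : Fin 6) : J j < 11 := by
  fin_cases j <;> simp [J]

/-- the matrix of coefficients -/
def A : Matrix (Fin 6) (Fin 6) (ZMod 13) := !![1, 0, 0, 0, 0, 0; 8, 10, 9, 12, 3, 4; 2, 5, 3, 12, 8, 10; 9, 11, 9, 2, 3, 0; 3, 2, 5, 2, 2, 10; 10, 4, 11, 10, 0, 0]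

/-- its inverse -/
def B : Matrix (Fin 6) (Fin 6) (ZMod 13) := !![1, 0, 0, 0, 0, 0; 7, 7, 6, 8, 12, 9; 12, 6, 1, 4, 7, 5; 9, 1, 3, 8, 7, 4; 3, 12, 12, 10, 4, 10; 12, 6, 7, 11, 5, 2]

theorem A_mul_B : A * B = 1 := by decide +kernel

theorem coeff_z (a j : Fin 6) : (z a).coeff (J j) = A a j := by
  fin_cases a <;> fin_cases j <;>
    simp [z, J, A, z0, z1, z2, z3, z4, z5, coeff_X, coeff_one, coeff_X_pow, coeff_ofNat_mul]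

/-- the linear functional -/
noncomputable def ell : TruncPoly (ZMod 13) 11 →ₗ[ZMod 13] (Fin 6 → ZMod 13) :=
  LinearMap.pi (fun j => truncCoeff (ZMod 13) 11 (J j))

theorem ell_mk (a : Fin 6) : ell (AdjoinRoot.mk (X ^ 11 : (ZMod 13)[X]) (z a)) = A a := by
  ext j
  simp only [ell, LinearMap.pi_apply]
  rw [truncCoeff_mk (J_lt j), coeff_z]

end Data13

open Data13 in
theorem kummerLemma_13 : KummerLemma 13 := by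
  refine kummerLemma_of_data (p := 13) (r := 6) rfl (by norm_num) t ht ell.toAddMonoidHom
    (fun a => AdjoinRoot.mk (X ^ 11 : (ZMod 13)[X]) (z a)) ?_ ?_
  · intro a
    fin_cases a
    · exact hZ0
    · exact hZ1
    · exact hZ2
    · exact hZ3
    · exact hZ4
    · exact hZ5
  · have : (fun a => ell.toAddMonoidHom (AdjoinRoot.mk (X ^ 11 : (ZMod 13)[X]) (z a))) = A.row := by
      funext a
      exact ell_mk a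
    rw [this, Matrix.linearIndependent_rows_iff_isUnit]
    exact (Matrix.isUnit_iff_isUnit_det A).mpr (Matrix.isUnit_det_of_right_inverse A_mul_B)

end Fermat.Agent.Kummer
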