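import Fermat.Agent.Kummer.DlogCriterion
import Fermat.Agent.Kummer.TruncPoly

/-! Kummer's lemma for `p = 7`: data generated by `scripts/kummer_data.py`. -/

set_option autoImplicit false
set_option linter.unusedSimpArgs false

namespace Fermat.Agent.Kummer

open Polynomial

namespace Data7

instance fact_prime : Fact (Nat.Prime 7) := ⟨by norm_num⟩

/-- The variable of the truncated polynomial ring. -/
noncomputable abbrev t : TruncPoly (ZMod 7) 5 := AdjoinRoot.root _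

theorem ht : t ^ 5 = 0 := root_pow_eq_zero

theorem hchar : (7 : TruncPoly (ZMod 7) 5) = 0 := by
  rw [← map_ofNat (algebraMap (ZMod 7) (TruncPoly (ZMod 7) 5)) 7]
  rw [show (OfNat.ofNat 7 : ZMod 7) = 0 from rfl, map_zero]

/-- logarithmic derivative of the `0`-th cyclotomic unit -/
noncomputable def z0 : (ZMod 7)[X] := 1

theorem mk_z0 : AdjoinRoot.mk (X ^ 5 : (ZMod 7)[X]) z0 = 1 := by
  simp only [z0, map_add, map_mul, map_pow, map_ofNat, map_one, AdjoinRoot.mk_X]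

theorem hz0 : (1) * ((1 + t) ^ 1) = 1 * (1 + t) ^ 1 := by
  linear_combination (0) * ht + (0) * hchar

theorem hZ0 : AdjoinRoot.mk (X ^ 5 : (ZMod 7)[X]) z0 * (∑ i ∈ Finset.range (0 + 1), (1 + t) ^ (i + 1)) =
    ∑ i ∈ Finset.range (0 + 1), ((i + 1 : ℕ) : TruncPoly (ZMod 7) 5) * (1 + t) ^ (i + 1) := by
  rw [mk_z0]
  simp only [Finset.sum_range_succ, Finset.sum_range_zero]
  push_cast
  linear_combination hz0

/-- logarithmic derivative of the `1`-th cyclotomic unit -/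
noncomputable def z1 : (ZMod 7)[X] := 5 + 2 * X + 6 * X ^ 2 + 4 * X ^ 3 + 5 * X ^ 4

theorem mk_z1 : AdjoinRoot.mk (X ^ 5 : (ZMod 7)[X]) z1 = 5 + 2 * t + 6 * t ^ 2 + 4 * t ^ 3 + 5 * t ^ 4 := by
  simp only [z1, map_add, map_mul, map_pow, map_ofNat, map_one, AdjoinRoot.mk_X]

theorem hz1 : (5 + 2 * t + 6 * t ^ 2 + 4 * t ^ 3 + 5 * t ^ 4) * ((1 + t) ^ 1 + (1 + t) ^ 2) = 1 * (1 + t) ^ 1 + 2 * (1 + t) ^ 2 := by
  linear_combination (19 + 5 * t) * ht + (1 + 2 * t + 3 * t ^ 2 + 4 * t ^ 3 + 4 * t ^ 4) * hchar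

theorem hZ1 : AdjoinRoot.mk (X ^ 5 : (ZMod 7)[X]) z1 * (∑ i ∈ Finset.range (1 + 1), (1 + t) ^ (i + 1)) =
    ∑ i ∈ Finset.range (1 + 1), ((i + 1 : ℕ) : TruncPoly (ZMod 7) 5) * (1 + t) ^ (i + 1) := by
  rw [mk_z1]
  simp only [Finset.sum_range_succ, Finset.sum_range_zero]
  push_cast
  linear_combination hz1

/-- logarithmic derivative of the `2`-th cyclotomic unit -/
noncomputable def z2 : (ZMod 7)[X] := 2 + 3 * X + 2 * X ^ 2 + 4 * X ^ 3

theorem mk_z2 : AdjoinRoot.mk (X ^ 5 : (ZMod 7)[X]) z2 = 2 + 3 * t + 2 * t ^ 2 + 4 * t ^ 3 := by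
  simp only [z2, map_add, map_mul, map_pow, map_ofNat, map_one, AdjoinRoot.mk_X]

theorem hz2 : (2 + 3 * t + 2 * t ^ 2 + 4 * t ^ 3) * ((1 + t) ^ 1 + (1 + t) ^ 2 + (1 + t) ^ 3) = 1 * (1 + t) ^ 1 + 2 * (1 + t) ^ 2 + 3 * (1 + t) ^ 3 := by
  linear_combination (18 + 4 * t) * ht + (1 * t + 3 * t ^ 2 + 5 * t ^ 3 + 5 * t ^ 4) * hchar

theorem hZ2 : AdjoinRoot.mk (X ^ 5 : (ZMod 7)[X]) z2 * (∑ i ∈ Finset.range (2 + 1), (1 + t) ^ (i + 1)) =
    ∑ i ∈ Finset.range (2 + 1), ((i + 1 : ℕ) : TruncPoly (ZMod 7) 5) * (1 + t) ^ (i + 1) := by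
  rw [mk_z2]
  simp only [Finset.sum_range_succ, Finset.sum_range_zero]
  push_cast
  linear_combination hz2

/-- the family of logarithmic derivatives -/
noncomputable def z : Fin 3 → (ZMod 7)[X] := ![z0, z1, z2]

/-- the coefficients we look at -/
def J : Fin 3 → ℕ := ![0, 1, 3]

theorem J_lt (j : Fin 3) : J j < 5 := by
  fin_cases j <;> simp [J]

/-- the matrix of coefficients -/
def A : Matrix (Fin 3) (Fin 3) (ZMod 7) := !![1, 0, 0; 5, 2, 4; 2, 3, 4]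

/-- its inverse -/
def B : Matrix (Fin 3) (Fin 3) (ZMod 7) := !![1, 0, 0; 3, 6, 1; 6, 6, 3]

theorem A_mul_B : A * B = 1 := by decide +kernel

theorem coeff_z (a j : Fin 3) : (z a).coeff (J j) = A a j := by
  fin_cases a <;> fin_cases j <;>
    simp [z, J, A, z0, z1, z2, coeff_X, coeff_one, coeff_X_pow, coeff_ofNat_mul]

/-- the linear functional -/
noncomputable def ell : TruncPoly (ZMod 7) 5 →ₗ[ZMod 7] (Fin 3 → ZMod 7) :=
  LinearMap.pi (fun j => truncCoeff (ZMod 7) 5 (J j))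

theorem ell_mk (a : Fin 3) : ell (AdjoinRoot.mk (X ^ 5 : (ZMod 7)[X]) (z a)) = A a := by
  ext j
  simp only [ell, LinearMap.pi_apply]
  rw [truncCoeff_mk (J_lt j), coeff_z]

end Data7

open Data7 in
theorem kummerLemma_7 : KummerLemma 7 := by
  refine kummerLemma_of_data (p := 7) (r := 3) rfl (by norm_num) t ht ell.toAddMonoidHom
    (fun a => AdjoinRoot.mk (X ^ 5 : (ZMod 7)[X]) (z a)) ?_ ?_
  · intro a
    fin_cases a
    · exact hZ0
    · exact hZ1
    · exact hZ2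
  · have : (fun a => ell.toAddMonoidHom (AdjoinRoot.mk (X ^ 5 : (ZMod 7)[X]) (z a))) = A.row := by
      funext a
      exact ell_mk a
    rw [this, Matrix.linearIndependent_rows_iff_isUnit]
    exact (Matrix.isUnit_iff_isUnit_det A).mpr (Matrix.isUnit_det_of_right_inverse A_mul_B)

end Fermat.Agent.Kummer
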